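import Mathlib

/-!
# Counting points of finite free `ℤ`-algebras over a discrete valuation ring

`card_quot_le`: if `T` is a finite free `ℤ`-algebra all of whose points are defined over the
discrete valuation ring `O` (residue characteristic two), then the number of points of `T` over `O`
reducing to the maximal ideal `𝔪` of `T` is at least the `𝔽₂`-dimension of any quotient `T/J`,
`2 ∈ J`, in which every element outside `𝔪` is invertible.
-/

set_option autoImplicit false
set_option linter.style.haveILetI false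
set_option linter.unusedSectionVars false

open IsLocalRing Module

namespace Fermat.Agent.LTF.ThR

section Kernel

variable {O : Type*} [CommRing O] [IsDomain O] [IsDiscreteValuationRing O]

/-- a linear map `O^d → O^s` with `s < d` kills a primitive vector -/
theorem exists_primitive_ker {ι κ : Type*} [Fintype ι] [Fintype κ] [DecidableEq ι]
    (h : Fintype.card κ < Fintype.card ι) (f : (ι → O) →ₗ[O] (κ → O)) :
    ∃ c : ι → O, f c = 0 ∧ ∃ i, IsUnit (c i) := by
  by_contra hcon
  push Not at hcon
  have hle : LinearMap.ker f ≤ maximalIdeal O • LinearMap.ker f := by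
    intro v hv
    rw [LinearMap.mem_ker] at hv
    obtain ⟨ϖ, hϖ⟩ := IsDiscreteValuationRing.exists_irreducible O
    have hm : maximalIdeal O = Ideal.span {ϖ} := hϖ.maximalIdeal_eq
    have h1 : ∀ i, ∃ w, v i = ϖ * w := by
      intro i
      have h2 : v i ∈ maximalIdeal O := (mem_maximalIdeal _).mpr (hcon v hv i)
      rw [hm, Ideal.mem_span_singleton] at h2
      exact h2
    choose w hw using h1
    have hvw : v = ϖ • w := by
      funext i
      rw [Pi.smul_apply, smul_eq_mul, hw i]
    rw [hvw]
    refine Submodule.smul_mem_smul (by rw [hm]; exact Ideal.mem_span_singleton_self ϖ) ?_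
    rw [LinearMap.mem_ker]
    rw [hvw, map_smul] at hv
    funext k
    have h3 := congrFun hv k
    rw [Pi.smul_apply, Pi.zero_apply, smul_eq_mul, mul_eq_zero] at h3
    exact h3.resolve_left hϖ.ne_zero
  have hbot : LinearMap.ker f = ⊥ :=
    Submodule.eq_bot_of_le_smul_of_le_jacobson_bot (maximalIdeal O) _
      (IsNoetherian.noetherian _) hle (IsLocalRing.maximalIdeal_le_jacobson _)
  have hinj : Function.Injective f := LinearMap.ker_eq_bot.mp hbot
  have := LinearMap.finrank_le_finrank_of_injective hinj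
  rw [finrank_fintype_fun_eq_card, finrank_fintype_fun_eq_card] at this
  omega

end Kernel

section Main

variable {T : Type*} [CommRing T] [Module.Finite ℤ T] [Module.Free ℤ T]
variable {O : Type*} [CommRing O] [IsDomain O] [IsDiscreteValuationRing O]

/-- the point `π` reduces to `𝔪` -/
def Over (𝔪 : Ideal T) (π : T →+* O) : Prop := ∀ t ∈ 𝔪, π t ∈ maximalIdeal O

theorem comap_isMaximal (h2O : (2 : O) ∈ maximalIdeal O) (π : T →+* O) :
    ((maximalIdeal O).comap π).IsMaximal := by
  set P := (maximalIdeal O).comap π with hP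
  have hprime : P.IsPrime := Ideal.comap_isPrime π _
  have h2 : (2 : T) ∈ P := by rw [hP, Ideal.mem_comap, map_ofNat]; exact h2O
  have hfin : Finite (T ⧸ P) := by
    have : Finite (T ⧸ (Ideal.span {(2 : T)})) := by
      have h3 : Module.Finite ℤ (T ⧸ (Ideal.span {(2 : T)})) := inferInstance
      refine Module.finite_of_fg_torsion _ ?_
      intro x
      refine ⟨⟨2, by simp⟩, ?_⟩
      obtain ⟨t, rfl⟩ := Ideal.Quotient.mk_surjective x
      change (2 : ℤ) • (Ideal.Quotient.mk (Ideal.span {(2 : T)}) t) = 0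
      rw [← map_zsmul, Ideal.Quotient.eq_zero_iff_mem, Ideal.mem_span_singleton]
      exact ⟨t, by simp⟩
    exact Finite.of_surjective (Ideal.Quotient.factor (S := Ideal.span {(2 : T)}) (T := P)
      ((Ideal.span_singleton_le_iff_mem _).mpr h2)) (Ideal.Quotient.factor_surjective _)
  have : IsDomain (T ⧸ P) := Ideal.Quotient.isDomain P
  exact Ideal.Quotient.maximal_of_isField P (Finite.isField_of_domain _)

theorem exists_sep (h2O : (2 : O) ∈ maximalIdeal O) (𝔪 : Ideal T) [h𝔪 : 𝔪.IsMaximal]
    (Y : Finset (T →+* O)) (hY : ∀ π ∈ Y, ¬ Over 𝔪 π) :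
    ∃ e : T, e ∉ 𝔪 ∧ ∀ π ∈ Y, π e ∈ maximalIdeal O := by
  classical
  induction Y using Finset.induction_on with
  | empty => exact ⟨1, fun h => h𝔪.ne_top ((Ideal.eq_top_iff_one _).mpr h), by simp⟩
  | insert π Y hπ ih =>
    obtain ⟨e, he, heY⟩ := ih fun π' hπ' => hY π' (Finset.mem_insert_of_mem hπ')
    have h1 : ∃ e' : T, e' ∉ 𝔪 ∧ π e' ∈ maximalIdeal O := by
      by_contra hcon
      push Not at hcon
      have hle : (maximalIdeal O).comap π ≤ 𝔪 := fun x hx => by
        by_contra hx'
        exact hcon x hx' hx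
      have heq := (comap_isMaximal h2O π).eq_of_le h𝔪.ne_top hle
      refine hY π (Finset.mem_insert_self _ _) fun t ht => ?_
      rw [← heq] at ht
      exact ht
    obtain ⟨e', he', hπe'⟩ := h1
    refine ⟨e * e', fun h => ?_, ?_⟩
    · rcases h𝔪.isPrime.mem_or_mem h with h | h
      · exact he h
      · exact he' h
    · intro π' hπ'
      rw [Finset.mem_insert] at hπ'
      rw [map_mul]
      rcases hπ' with rfl | hπ'
      · exact Ideal.mul_mem_left _ _ hπe'
      · exact Ideal.mul_mem_right _ _ (heY π' hπ')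

open Classical in
/-- **Counting points.** -/
theorem card_quot_le (h2O : (2 : O) ∈ maximalIdeal O) (𝔪 : Ideal T) [h𝔪 : 𝔪.IsMaximal]
    (J : Ideal T) (h2J : (2 : T) ∈ J) (hJ : ∀ t, t ∉ 𝔪 → IsUnit (Ideal.Quotient.mk J t))
    (X : Finset (T →+* O)) (hX : finrank ℤ T ≤ X.card) :
    Nat.card (T ⧸ J) ≤ 2 ^ (X.filter (Over 𝔪)).card := by
  set X' := X.filter (Over 𝔪) with hX'
  -- the `𝔽₂`-structure
  letI : Module (ZMod 2) (T ⧸ J) := AddCommGroup.zmodModule (by
    intro x
    obtain ⟨t, rfl⟩ := Ideal.Quotient.mk_surjective x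
    rw [← map_nsmul, Ideal.Quotient.eq_zero_iff_mem, nsmul_eq_mul]
    exact Ideal.mul_mem_right _ _ (by exact_mod_cast h2J))
  haveI : Module.Finite ℤ (T ⧸ J) := inferInstance
  haveI : IsScalarTower ℤ (ZMod 2) (T ⧸ J) := ⟨fun a b c => by
    rw [← Int.cast_smul_eq_zsmul (ZMod 2) a b, smul_eq_mul, mul_smul, Int.cast_smul_eq_zsmul]⟩
  haveI : Module.Finite (ZMod 2) (T ⧸ J) := Module.Finite.of_restrictScalars_finite ℤ (ZMod 2) _
  set d := finrank (ZMod 2) (T ⧸ J) with hd
  have hcard : Nat.card (T ⧸ J) = 2 ^ d := by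
    have := Module.natCard_eq_pow_finrank (K := ZMod 2) (V := T ⧸ J)
    rw [this, Nat.card_zmod]
  rw [hcard]
  refine Nat.pow_le_pow_right (by norm_num) ?_
  by_contra hlt
  push Not at hlt
  let bJ := Module.finBasis (ZMod 2) (T ⧸ J)
  have hsurj : ∀ i, ∃ t : T, Ideal.Quotient.mk J t = bJ i := fun i =>
    Ideal.Quotient.mk_surjective (bJ i)
  choose t ht using hsurj
  -- primitive relation
  let f : (Fin d → O) →ₗ[O] (X' → O) :=
    LinearMap.pi fun π => ∑ i, (π.1 (t i)) • LinearMap.proj i
  have hf : ∀ c π, f c π = ∑ i, c i * π.1 (t i) := by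
    intro c π
    simp only [f, LinearMap.pi_apply, LinearMap.sum_apply, LinearMap.smul_apply,
      LinearMap.proj_apply, smul_eq_mul]
    exact Finset.sum_congr rfl fun i _ => mul_comm _ _
  obtain ⟨c, hc0, i₀, hi₀⟩ := exists_primitive_ker (O := O) (by simpa using hlt) f
  have hc : ∀ π ∈ X', ∑ i, c i * π (t i) = 0 := by
    intro π hπ
    rw [← hf c ⟨π, hπ⟩, hc0]; rfl
  -- separating element
  obtain ⟨e, he, heY⟩ := exists_sep (O := O) h2O 𝔪 (X.filter fun π => ¬ Over 𝔪 π)
    (fun π hπ => (Finset.mem_filter.mp hπ).2)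
  -- a basis of `T` and the matrix
  let bT := Module.finBasis ℤ T
  set m := finrank ℤ T with hm
  have hli : LinearIndependent O (fun π : X => (fun k : Fin m => π.1 (bT k))) := by
    rw [Fintype.linearIndependent_iff]
    intro g hg
    have hmon : LinearIndependent O (fun π : X => ((π.1 : T →* O) : T → O)) := by
      have := linearIndependent_monoidHom T O
      refine this.comp (fun π : X => (π.1 : T →* O)) ?_
      intro π π' h
      apply Subtype.ext
      exact RingHom.ext fun x => DFunLike.congr_fun h x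
    rw [Fintype.linearIndependent_iff] at hmon
    refine hmon g ?_
    funext x
    have hx : x = ∑ k, bT.repr x k • bT k := (bT.sum_repr x).symm
    rw [Finset.sum_apply, Pi.zero_apply]
    have h1 : ∀ k, ∑ π : X, g π * π.1 (bT k) = 0 := by
      intro k
      have := congrFun hg k
      simpa [Finset.sum_apply] using this
    calc ∑ π : X, (g π • ((π.1 : T →* O) : T → O)) x
        = ∑ π : X, g π * π.1 (∑ k, bT.repr x k • bT k) := by
          refine Finset.sum_congr rfl fun π _ => ?_
          rw [← hx]; rfl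
      _ = ∑ π : X, ∑ k, (bT.repr x k : O) * (g π * π.1 (bT k)) := by
          refine Finset.sum_congr rfl fun π _ => ?_
          rw [map_sum, Finset.mul_sum]
          refine Finset.sum_congr rfl fun k _ => ?_
          rw [map_zsmul, zsmul_eq_mul]
          ring
      _ = ∑ k, (bT.repr x k : O) * ∑ π : X, g π * π.1 (bT k) := by
          rw [Finset.sum_comm]
          refine Finset.sum_congr rfl fun k _ => ?_
          rw [Finset.mul_sum]
      _ = 0 := Finset.sum_eq_zero fun k _ => by rw [h1 k, mul_zero]
  have hcardX : X.card = m := by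
    refine le_antisymm ?_ hX
    have := hli.fintype_card_le_finrank
    rwa [Fintype.card_coe, finrank_fintype_fun_eq_card, Fintype.card_fin] at this
  let eX : Fin m ≃ X := (Fintype.equivOfCardEq (by rw [Fintype.card_fin, Fintype.card_coe, hcardX]))
  let M : Matrix (Fin m) (Fin m) O := fun a k => (eX a).1 (bT k)
  have hdet : M.det ≠ 0 := by
    intro h0
    obtain ⟨v, hv0, hv⟩ := Matrix.exists_vecMul_eq_zero_iff.mpr h0
    refine hv0 ?_
    rw [Fintype.linearIndependent_iff] at hli
    have h1 := hli (fun π => v (eX.symm π)) (by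
      funext k
      have h2 := congrFun hv k
      rw [Matrix.vecMul, dotProduct] at h2
      rw [Finset.sum_apply, Pi.zero_apply, ← eX.sum_comp]
      simpa [M] using h2)
    funext a
    have := h1 (eX a)
    simpa using this
  -- the power of the maximal ideal
  obtain ⟨n, hn⟩ : ∃ n, M.det ∉ maximalIdeal O ^ n := by
    by_contra hcon
    push Not at hcon
    refine hdet ?_
    have h1 : M.det ∈ ⨅ i : ℕ, maximalIdeal O ^ i := by
      rw [Submodule.mem_iInf]; exact hcon
    rwa [Ideal.iInf_pow_eq_bot_of_isLocalRing _ (maximalIdeal.isMaximal O).ne_top] at h1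
  let y : Fin m → O := fun k => ∑ i, c i * (bT.repr (e ^ n * t i) k : O)
  have hMy : ∀ a, M.mulVec y a = (eX a).1 (e ^ n) * ∑ i, c i * (eX a).1 (t i) := by
    intro a
    have h1 : ∀ x : T, ∑ k, M a k * (bT.repr x k : O) = (eX a).1 x := by
      intro x
      conv_rhs => rw [← bT.sum_repr x]
      rw [map_sum]
      refine Finset.sum_congr rfl fun k _ => ?_
      rw [map_zsmul, zsmul_eq_mul, mul_comm]
    calc M.mulVec y a = ∑ k, M a k * ∑ i, c i * (bT.repr (e ^ n * t i) k : O) := rfl
      _ = ∑ i, c i * ∑ k, M a k * (bT.repr (e ^ n * t i) k : O) := by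
        simp_rw [Finset.mul_sum]
        rw [Finset.sum_comm]
        refine Finset.sum_congr rfl fun i _ => Finset.sum_congr rfl fun k _ => ?_
        ring
      _ = _ := by
        rw [Finset.mul_sum]
        refine Finset.sum_congr rfl fun i _ => ?_
        rw [h1, map_mul]
        ring
  have hMy' : ∀ a, M.mulVec y a ∈ maximalIdeal O ^ n := by
    intro a
    rw [hMy]
    by_cases ha : Over 𝔪 (eX a).1
    · rw [hc _ (Finset.mem_filter.mpr ⟨(eX a).2, ha⟩), mul_zero]
      exact zero_mem _
    · rw [map_pow]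
      exact Ideal.mul_mem_right _ _ (Ideal.pow_mem_pow
        (heY _ (Finset.mem_filter.mpr ⟨(eX a).2, ha⟩)) _)
  have hy : ∀ k, y k ∈ maximalIdeal O := by
    intro k
    by_contra hk
    rw [mem_maximalIdeal, mem_nonunits_iff, not_not] at hk
    have h1 : M.det * y k ∈ maximalIdeal O ^ n := by
      have h2 : M.det • y = M.adjugate.mulVec (M.mulVec y) := by
        rw [Matrix.mulVec_mulVec, Matrix.adjugate_mul, Matrix.smul_mulVec, Matrix.one_mulVec]
      have h3 := congrFun h2 k
      rw [Pi.smul_apply, smul_eq_mul] at h3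
      rw [h3, Matrix.mulVec, dotProduct]
      exact Ideal.sum_mem _ fun a _ => Ideal.mul_mem_left _ _ (hMy' a)
    exact hn ((Ideal.unit_mul_mem_iff_mem _ hk).mp (by rwa [mul_comm] at h1))
  -- conclusion in the residue field
  have hbe : IsUnit (Ideal.Quotient.mk J e) := hJ e he
  obtain ⟨u, hu⟩ := hbe
  have hchar : (2 : ResidueField O) = 0 := by
    have := (residue_eq_zero_iff (R := O) 2).mpr h2O
    rwa [map_ofNat] at this
  haveI : CharP (ResidueField O) 2 := CharTwo.of_one_ne_zero_of_two_eq_zero one_ne_zero hchar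
  let φ : ZMod 2 →+* ResidueField O := ZMod.castHom (dvd_refl 2) _
  let β : Fin d → T → ZMod 2 := fun j x => bJ.repr ((↑(u⁻¹ ^ n) : T ⧸ J) * Ideal.Quotient.mk J x) j
  have hβ : ∀ i j, β j (e ^ n * t i) = if i = j then 1 else 0 := by
    intro i j
    have h1 : (↑(u⁻¹ ^ n) : T ⧸ J) * Ideal.Quotient.mk J (e ^ n * t i) = bJ i := by
      rw [map_mul, map_pow, ht, ← hu, ← mul_assoc, ← Units.val_pow_eq_pow_val, ← Units.val_mul,
        ← mul_pow, inv_mul_cancel, one_pow, Units.val_one, one_mul]
    show bJ.repr _ j = _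
    rw [h1, Basis.repr_self, Finsupp.single_apply]
  have hβT : ∀ j x, β j x = ∑ k, (bT.repr x k : ZMod 2) * β j (bT k) := by
    intro j x
    show bJ.repr _ j = ∑ k, _ * bJ.repr _ j
    conv_lhs => rw [← bT.sum_repr x]
    rw [map_sum, Finset.mul_sum, map_sum, Finsupp.finsetSum_apply]
    refine Finset.sum_congr rfl fun k _ => ?_
    rw [map_zsmul, mul_smul_comm, ← Int.cast_smul_eq_zsmul (ZMod 2), map_smul,
      Finsupp.smul_apply, smul_eq_mul]
  have hfin : residue O (c i₀) = 0 := by
    calc residue O (c i₀) = ∑ i, residue O (c i) * φ (β i₀ (e ^ n * t i)) := by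
          rw [Finset.sum_eq_single i₀]
          · rw [hβ, if_pos rfl, map_one, mul_one]
          · intro i _ hi
            rw [hβ, if_neg hi, map_zero, mul_zero]
          · intro h; exact absurd (Finset.mem_univ _) h
      _ = ∑ k, residue O (y k) * φ (β i₀ (bT k)) := by
          have h1 : ∀ i, residue O (c i) * φ (β i₀ (e ^ n * t i)) =
              ∑ k, residue O (c i * (bT.repr (e ^ n * t i) k : O)) * φ (β i₀ (bT k)) := by
            intro i
            rw [hβT, map_sum, Finset.mul_sum]
            refine Finset.sum_congr rfl fun k _ => ?_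
            rw [RingHom.map_mul φ, RingHom.map_mul (residue O), map_intCast, map_intCast,
              mul_assoc]
          rw [Finset.sum_congr rfl fun i _ => h1 i, Finset.sum_comm]
          refine Finset.sum_congr rfl fun k _ => ?_
          rw [map_sum, Finset.sum_mul]
      _ = 0 := Finset.sum_eq_zero fun k _ => by
          rw [(residue_eq_zero_iff _).mpr (hy k), zero_mul]
  rw [residue_eq_zero_iff] at hfin
  exact hfin hi₀

end Main

end Fermat.Agent.LTF.ThR
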