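import Mathlib
import Fermat.Agent.ClassL.Compare

/-!
# Ideals of given norm in an imaginary quadratic field

`Idn K n`: nonzero ideals of norm `n`; `S G n = ∑ G [I]` over these ideals.  Hecke type relations.
-/

set_option autoImplicit false
set_option linter.style.haveILetI false
set_option linter.unusedSectionVars false

open NumberField Module nonZeroDivisors

namespace Fermat.Agent.LTF.ThR

variable (K : Type) [Field K] [NumberField K]

/-- nonzero ideals of norm `n` -/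
abbrev Idn (n : ℕ) : Type := {I : (Ideal (𝓞 K))⁰ // Ideal.absNorm (I : Ideal (𝓞 K)) = n}

noncomputable instance (n : ℕ) : Fintype (Idn K n) :=
  @Fintype.ofFinite _ (ClassL.finite_norm_eq (K := K) n)

instance : IsEmpty (Idn K 0) := ⟨fun I => by
  have h := I.2
  rw [Ideal.absNorm_eq_zero_iff] at h
  exact nonZeroDivisors.coe_ne_zero I.1 h⟩

/-- number of ideals of norm `n` in the class `A` -/
noncomputable def r (A : ClassGroup (𝓞 K)) (n : ℕ) : ℕ :=
  Nat.card {I : (Ideal (𝓞 K))⁰ // Ideal.absNorm (I : Ideal (𝓞 K)) = n ∧ ClassGroup.mk0 I = A}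

variable {K}

/-- `∑ G [I]` over the ideals of norm `n` -/
noncomputable def S {M : Type*} [AddCommMonoid M] (G : ClassGroup (𝓞 K) → M) (n : ℕ) : M :=
  ∑ I : Idn K n, G (ClassGroup.mk0 I.1)

variable {M : Type*} [AddCommMonoid M]

theorem S_zero (G : ClassGroup (𝓞 K) → M) : S G 0 = 0 := by
  rw [S]
  exact Finset.sum_of_isEmpty _

theorem S_add (G G' : ClassGroup (𝓞 K) → M) (n : ℕ) : S (G + G') n = S G n + S G' n := by
  simp [S, Finset.sum_add_distrib]

/-- a single ideal of norm one -/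
theorem S_one (G : ClassGroup (𝓞 K) → M) : S G 1 = G 1 := by
  classical
  have h : ∀ I : Idn K 1, I = ⟨1, by simp⟩ := by
    intro I
    apply Subtype.ext
    apply Subtype.ext
    have h1 := I.2
    rw [Ideal.absNorm_eq_one_iff] at h1
    rw [h1]
    exact Ideal.one_eq_top.symm
  haveI : Unique (Idn K 1) := ⟨⟨⟨1, by simp⟩⟩, h⟩
  rw [S, Fintype.sum_unique]
  congr 1
  have h2 : (default : Idn K 1) = ⟨1, by simp⟩ := h _
  rw [h2]
  exact map_one _

open Classical in
theorem S_indicator (A : ClassGroup (𝓞 K)) (n : ℕ) :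
    S (fun B => if B = A then (1 : ℕ) else 0) n = r K A n := by
  rw [S, r, Finset.sum_boole, Nat.cast_id, ← Fintype.card_subtype, ← Nat.card_eq_fintype_card]
  exact Nat.card_congr (Equiv.subtypeSubtypeEquivSubtypeInter _
    (fun I : (Ideal (𝓞 K))⁰ => ClassGroup.mk0 I = A))

/-- the sum over ideals is the sum over classes -/
theorem S_eq_sum {R : Type*} [CommSemiring R] (G : ClassGroup (𝓞 K) → R) (n : ℕ) :
    S G n = ∑ A, (r K A n : R) * G A := by
  classical
  rw [S, ← Finset.sum_fiberwise (g := fun I : Idn K n => ClassGroup.mk0 I.1)]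
  refine Finset.sum_congr rfl fun A _ => ?_
  rw [Finset.sum_congr rfl (g := fun _ => G A) (by
    intro I hI
    rw [(Finset.mem_filter.mp hI).2]), Finset.sum_const, nsmul_eq_mul]
  congr 2
  rw [← S_indicator, S, Finset.sum_boole, Nat.cast_id]

section Mul

/-- multiplication by a fixed ideal -/
noncomputable def mulP (P : (Ideal (𝓞 K))⁰) {n m : ℕ}
    (hm : m = Ideal.absNorm (P : Ideal (𝓞 K)) * n) (J : Idn K n) : Idn K m :=
  ⟨P * J.1, by rw [Submonoid.coe_mul, map_mul, J.2, hm]⟩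

theorem mulP_injective (P : (Ideal (𝓞 K))⁰) {n m : ℕ}
    (hm : m = Ideal.absNorm (P : Ideal (𝓞 K)) * n) : Function.Injective (mulP (K := K) P hm) := by
  intro J J' h
  apply Subtype.ext; apply Subtype.ext
  have h1 := congrArg (fun x : Idn K m => ((x.1 : (Ideal (𝓞 K))⁰) : Ideal (𝓞 K))) h
  simp only [mulP, Submonoid.coe_mul] at h1
  exact mul_left_cancel₀ (nonZeroDivisors.coe_ne_zero P) h1

theorem exists_mulP (P : (Ideal (𝓞 K))⁰) {n m : ℕ}
    (hm : m = Ideal.absNorm (P : Ideal (𝓞 K)) * n) (I : Idn K m)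
    (h : (P : Ideal (𝓞 K)) ∣ I.1) : ∃ J, mulP (K := K) P hm J = I := by
  obtain ⟨J, hJ⟩ := h
  refine ⟨⟨⟨J, mem_nonZeroDivisors_of_ne_zero (by
      rintro rfl
      rw [mul_zero] at hJ
      exact nonZeroDivisors.coe_ne_zero I.1 hJ)⟩, ?_⟩, ?_⟩
  · have h2 := congrArg Ideal.absNorm hJ
    rw [map_mul, I.2, hm] at h2
    exact (Nat.eq_of_mul_eq_mul_left (Ideal.absNorm_pos_of_nonZeroDivisors P) h2).symm
  · apply Subtype.ext; apply Subtype.ext
    exact hJ.symm

open Classical in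
theorem sum_dvd (P : (Ideal (𝓞 K))⁰) {n m : ℕ} (hm : m = Ideal.absNorm (P : Ideal (𝓞 K)) * n)
    (G : ClassGroup (𝓞 K) → M) :
    (∑ I : Idn K m, if (P : Ideal (𝓞 K)) ∣ I.1 then G (ClassGroup.mk0 I.1) else 0) =
      S (fun A => G (ClassGroup.mk0 P * A)) n := by
  rw [← Finset.sum_filter]
  have h : Finset.univ.filter (fun I : Idn K m => (P : Ideal (𝓞 K)) ∣ I.1) =
      Finset.univ.image (mulP (K := K) P hm) := by
    ext I
    simp only [Finset.mem_filter, Finset.mem_univ, true_and, Finset.mem_image]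
    constructor
    · exact exists_mulP P hm I
    · rintro ⟨J, rfl⟩
      exact Dvd.intro _ (by rw [mulP, Submonoid.coe_mul])
  rw [h, Finset.sum_image fun a _ b _ hab => mulP_injective P hm hab, S]
  refine Finset.sum_congr rfl fun J _ => ?_
  rw [mulP, map_mul]

/-- if all ideals of norm `m` are divisible by `P` -/
theorem S_of_forall_dvd (P : (Ideal (𝓞 K))⁰) {n m : ℕ}
    (hm : m = Ideal.absNorm (P : Ideal (𝓞 K)) * n)
    (h : ∀ I : (Ideal (𝓞 K))⁰, Ideal.absNorm (I : Ideal (𝓞 K)) = m → (P : Ideal (𝓞 K)) ∣ I)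
    (G : ClassGroup (𝓞 K) → M) : S G m = S (fun A => G (ClassGroup.mk0 P * A)) n := by
  classical
  rw [← sum_dvd P hm, S]
  refine Finset.sum_congr rfl fun I _ => ?_
  rw [if_pos (h I.1 I.2)]

end Mul

section Primes

/-- the principal ideal generated by a positive integer -/
noncomputable def spn (n : ℕ) (hn : n ≠ 0) : (Ideal (𝓞 K))⁰ :=
  ⟨Ideal.span {(n : 𝓞 K)}, mem_nonZeroDivisors_of_ne_zero (by
    rw [Ne, Ideal.zero_eq_bot, Ideal.span_singleton_eq_bot]
    exact_mod_cast hn)⟩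

theorem coe_spn (n : ℕ) (hn : n ≠ 0) :
    ((spn n hn : (Ideal (𝓞 K))⁰) : Ideal (𝓞 K)) = Ideal.span {(n : 𝓞 K)} := rfl

theorem absNorm_span_nat (h2 : finrank ℚ K = 2) (n : ℕ) :
    Ideal.absNorm (Ideal.span {(n : 𝓞 K)}) = n ^ 2 := by
  rw [Ideal.absNorm_span_natCast, NumberField.RingOfIntegers.rank, h2]

theorem mk0_spn (n : ℕ) (hn : n ≠ 0) : ClassGroup.mk0 (spn (K := K) n hn) = 1 := by
  rw [ClassGroup.mk0_eq_one_iff]
  exact ⟨⟨_, rfl⟩⟩

theorem mem_of_under {P : Ideal (𝓞 K)} {p : ℕ} (h : P.under ℤ = Ideal.span {(p : ℤ)}) :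
    (p : 𝓞 K) ∈ P := by
  have h1 : (p : ℤ) ∈ P.under ℤ := by rw [h]; exact Ideal.mem_span_singleton_self _
  have h2 : algebraMap ℤ (𝓞 K) (p : ℤ) ∈ P := h1
  simpa using h2

theorem eq_of_dvd_of_absNorm_eq {I J : Ideal (𝓞 K)} (h : I ∣ J) (hJ : J ≠ ⊥)
    (hn : Ideal.absNorm I = Ideal.absNorm J) : I = J := by
  obtain ⟨L, rfl⟩ := h
  rw [map_mul] at hn
  have hI : Ideal.absNorm I ≠ 0 := by
    rw [Ne, Ideal.absNorm_eq_zero_iff]
    rintro rfl
    exact hJ (by simp)
  have h1 : Ideal.absNorm L = 1 := by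
    have : Ideal.absNorm I * 1 = Ideal.absNorm I * Ideal.absNorm L := by rw [mul_one]; exact hn
    exact (Nat.eq_of_mul_eq_mul_left (Nat.pos_of_ne_zero hI) this).symm
  rw [Ideal.absNorm_eq_one_iff] at h1
  rw [h1, ← Ideal.one_eq_top, mul_one]

/-- no ideal of norm `q`: every ideal of norm divisible by `q` is divisible by `q` -/
theorem inert_dvd (h2 : finrank ℚ K = 2) {q : ℕ} (hq : q.Prime)
    (hin : ∀ I : Ideal (𝓞 K), Ideal.absNorm I ≠ q) {I : Ideal (𝓞 K)}
    (hI : q ∣ Ideal.absNorm I) : Ideal.span {(q : 𝓞 K)} ∣ I := by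
  obtain ⟨P, hP, hPq, hPI⟩ := Ideal.exists_isMaximal_dvd_of_dvd_absNorm' hq I hI
  have hdvd : P ∣ Ideal.span {(q : 𝓞 K)} := by
    rw [Ideal.dvd_span_singleton]
    exact mem_of_under hPq
  have hn : Ideal.absNorm P ∣ q ^ 2 := by
    rw [← absNorm_span_nat h2 q]
    exact map_dvd Ideal.absNorm hdvd
  rw [Nat.dvd_prime_pow hq] at hn
  obtain ⟨i, hi, hPi⟩ := hn
  have h0 : i ≠ 0 := by
    rintro rfl
    rw [pow_zero, Ideal.absNorm_eq_one_iff] at hPi
    exact hP.ne_top hPi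
  have h1 : i ≠ 1 := by
    rintro rfl
    rw [pow_one] at hPi
    exact hin P hPi
  have hi2 : i = 2 := by omega
  subst hi2
  have hbot : Ideal.span {(q : 𝓞 K)} ≠ ⊥ := by
    rw [Ne, Ideal.span_singleton_eq_bot]
    exact_mod_cast hq.ne_zero
  rw [← eq_of_dvd_of_absNorm_eq hdvd hbot (by rw [hPi, absNorm_span_nat h2])]
  exact hPI

theorem S_inert_mul (h2 : finrank ℚ K = 2) {q : ℕ} (hq : q.Prime)
    (hin : ∀ I : Ideal (𝓞 K), Ideal.absNorm I ≠ q) (G : ClassGroup (𝓞 K) → M) (n : ℕ) :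
    S G (q ^ 2 * n) = S G n := by
  rw [S_of_forall_dvd (spn q hq.ne_zero) (n := n) (m := q ^ 2 * n)
    (by rw [coe_spn, absNorm_span_nat h2])]
  · simp_rw [mk0_spn, one_mul]
  · intro I hI
    exact inert_dvd h2 hq hin (by rw [hI, pow_two, mul_assoc]; exact dvd_mul_right _ _)

theorem S_inert_of_not_dvd (h2 : finrank ℚ K = 2) {q : ℕ} (hq : q.Prime)
    (hin : ∀ I : Ideal (𝓞 K), Ideal.absNorm I ≠ q) (G : ClassGroup (𝓞 K) → M) {n : ℕ}
    (hn : ¬ q ∣ n) : S G (q * n) = 0 := by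
  haveI : IsEmpty (Idn K (q * n)) := ⟨fun I => by
    have h1 := inert_dvd h2 hq hin (I := I.1) (by rw [I.2]; exact dvd_mul_right _ _)
    have h3 := map_dvd Ideal.absNorm h1
    rw [absNorm_span_nat h2, I.2, pow_two] at h3
    exact hn (Nat.dvd_of_mul_dvd_mul_left hq.pos h3)⟩
  rw [S]
  exact Finset.sum_of_isEmpty _

theorem S_inert (h2 : finrank ℚ K = 2) {q : ℕ} (hq : q.Prime)
    (hin : ∀ I : Ideal (𝓞 K), Ideal.absNorm I ≠ q) (G : ClassGroup (𝓞 K) → M) (n : ℕ) :
    S G (q * n) = if q ∣ n then S G (n / q) else 0 := by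
  split_ifs with h
  · obtain ⟨m, rfl⟩ := h
    rw [Nat.mul_div_cancel_left _ hq.pos, ← mul_assoc, ← pow_two, S_inert_mul h2 hq hin]
  · exact S_inert_of_not_dvd h2 hq hin G h

end Primes

section Ramified

variable {N : ℕ} {s : 𝓞 K}

/-- `2` is ramified in `ℚ(√-N)`, `N ≡ 2 mod 4`. -/
theorem exists_ramified_two (hs : s ^ 2 = -(N : 𝓞 K)) (hN : N % 4 = 2) :
    ∃ P : Ideal (𝓞 K), P ^ 2 = Ideal.span {(2 : 𝓞 K)} := by
  obtain ⟨k, hk⟩ : ∃ k, N = 4 * k + 2 := ⟨N / 4, by omega⟩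
  refine ⟨Ideal.span {(2 : 𝓞 K), s}, ?_⟩
  rw [pow_two, Ideal.span_pair_mul_span_pair]
  apply le_antisymm
  · rw [Ideal.span_le]
    intro x hx
    simp only [Set.mem_insert_iff, Set.mem_singleton_iff] at hx
    rw [SetLike.mem_coe, Ideal.mem_span_singleton]
    rcases hx with rfl | rfl | rfl | rfl
    · exact dvd_mul_right _ _
    · exact dvd_mul_right _ _
    · exact dvd_mul_left _ _
    · rw [← pow_two, hs, hk]
      refine (dvd_neg).mpr ⟨2 * k + 1, ?_⟩
      push_cast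
      ring
  · rw [Ideal.span_singleton_le_iff_mem]
    have h4 : (2 : 𝓞 K) * 2 ∈ Ideal.span {(2 : 𝓞 K) * 2, 2 * s, s * 2, s * s} :=
      Ideal.subset_span (by simp)
    have hss : s * s ∈ Ideal.span {(2 : 𝓞 K) * 2, 2 * s, s * 2, s * s} :=
      Ideal.subset_span (by simp)
    have h5 : (2 : 𝓞 K) = -(s * s) - (k : 𝓞 K) * (2 * 2) := by
      rw [← pow_two s, hs, hk]
      push_cast
      ring
    have h6 := sub_mem (neg_mem hss) (Ideal.mul_mem_left _ (k : 𝓞 K) h4)
    rwa [← h5] at h6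

theorem two_dvd_of_four_dvd (h2 : finrank ℚ K = 2) (hs : s ^ 2 = -(N : 𝓞 K)) (hN : N % 4 = 2)
    {I : Ideal (𝓞 K)} (hI : 4 ∣ Ideal.absNorm I) : Ideal.span {(2 : 𝓞 K)} ∣ I := by
  obtain ⟨P, hP⟩ := exists_ramified_two hs hN
  have hPn : Ideal.absNorm P = 2 := by
    have h1 := congrArg Ideal.absNorm hP
    have h3 : Ideal.absNorm (Ideal.span {(2 : 𝓞 K)}) = 2 ^ 2 := by
      have := absNorm_span_nat (K := K) h2 2
      simpa using this
    rw [map_pow, h3] at h1
    exact Nat.pow_left_injective (n := 2) (by norm_num) h1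
  have hPp : P.IsPrime := Ideal.isPrime_of_irreducible_absNorm (by rw [hPn]; exact Nat.prime_two)
  have hPbot : P ≠ ⊥ := by
    rintro rfl
    simp at hPn
  have hPm : P.IsMaximal := hPp.isMaximal hPbot
  have key : ∀ J : Ideal (𝓞 K), 2 ∣ Ideal.absNorm J → P ∣ J := by
    intro J hJ
    obtain ⟨P', hP', hPq, hPJ⟩ := Ideal.exists_isMaximal_dvd_of_dvd_absNorm' Nat.prime_two J hJ
    have hmem : (2 : 𝓞 K) ∈ P' := by
      have := mem_of_under hPq
      simpa using this
    have h1 : P ^ 2 ≤ P' := by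
      rw [hP, Ideal.span_singleton_le_iff_mem]; exact hmem
    have h3 : P ≤ P' := hP'.isPrime.le_of_pow_le h1
    have h4 : P = P' := hPm.eq_of_le hP'.ne_top h3
    rw [h4]; exact hPJ
  obtain ⟨J, hJ⟩ := key I (dvd_trans (by norm_num) hI)
  have h6 : 2 ∣ Ideal.absNorm J := by
    rw [hJ, map_mul, hPn] at hI
    omega
  obtain ⟨L, hL⟩ := key J h6
  rw [← hP, hJ, hL]
  exact ⟨L, by rw [pow_two, mul_assoc]⟩

theorem S_four (h2 : finrank ℚ K = 2) (hs : s ^ 2 = -(N : 𝓞 K)) (hN : N % 4 = 2)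
    (G : ClassGroup (𝓞 K) → M) (n : ℕ) : S G (4 * n) = S G n := by
  rw [S_of_forall_dvd (spn 2 two_ne_zero) (n := n) (m := 4 * n)
    (by rw [coe_spn, absNorm_span_nat h2]; norm_num)]
  · simp_rw [mk0_spn, one_mul]
  · intro I hI
    have := two_dvd_of_four_dvd h2 hs hN (I := I) (by rw [hI]; exact dvd_mul_right _ _)
    rw [coe_spn]
    simpa using this

end Ramified

section Split

variable {N : ℕ} {s : 𝓞 K}

theorem trace_s (h2 : finrank ℚ K = 2) (hs : s ^ 2 = -(N : 𝓞 K)) (hN : 0 < N) :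
    Algebra.trace ℤ (𝓞 K) s = 0 := by
  have hs' : (s : K) ^ 2 = -(N : K) := by
    have := congrArg (fun x : 𝓞 K => (x : K)) hs
    simpa using this
  let b : Basis (Fin 2) ℚ K := Module.finBasisOfFinrankEq ℚ K h2
  set A := Algebra.leftMulMatrix b (s : K) with hA
  have hAA : A * A = -(N : ℚ) • (1 : Matrix (Fin 2) (Fin 2) ℚ) := by
    rw [hA, ← map_mul, ← pow_two, hs', map_neg, map_natCast, neg_smul, Nat.cast_smul_eq_nsmul,
      nsmul_one]
  have hCH : A * A = A.trace • A - A.det • (1 : Matrix (Fin 2) (Fin 2) ℚ) := by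
    have h1 := Matrix.aeval_self_charpoly A
    rw [Matrix.charpoly_fin_two] at h1
    simp only [map_add, map_sub, map_mul, map_pow, Polynomial.aeval_X, Polynomial.aeval_C] at h1
    rw [Algebra.algebraMap_eq_smul_one, Algebra.algebraMap_eq_smul_one, smul_mul_assoc, one_mul,
      pow_two] at h1
    rw [← sub_eq_zero, ← h1]
    abel
  have htr : Algebra.trace ℚ K (s : K) = A.trace := Algebra.trace_eq_matrix_trace b _
  have h3 : A.trace • A = (A.det - N) • (1 : Matrix (Fin 2) (Fin 2) ℚ) := by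
    have h4 := hCH.symm.trans hAA
    rw [sub_eq_iff_eq_add] at h4
    rw [h4, sub_smul, neg_smul]
    abel
  have h0 : A.trace = 0 := by
    by_contra hne
    have h4 : A.trace • (s : K) = algebraMap ℚ K (A.det - N) := by
      apply Algebra.leftMulMatrix_injective b
      rw [map_smul, ← hA, h3, AlgHom.commutes, Algebra.algebraMap_eq_smul_one]
    have h5 : (s : K) = algebraMap ℚ K ((A.det - N) / A.trace) := by
      rw [div_eq_inv_mul, map_mul, ← h4, ← Algebra.smul_def, smul_smul, inv_mul_cancel₀ hne,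
        one_smul]
    rw [h5, ← map_pow, ← map_natCast (algebraMap ℚ K), ← map_neg] at hs'
    have h6 := (algebraMap ℚ K).injective hs'
    have h7 : (0 : ℚ) < N := by exact_mod_cast hN
    nlinarith [sq_nonneg ((A.det - N) / A.trace)]
  have h8 : ((Algebra.trace ℤ (𝓞 K) s : ℤ) : ℚ) = 0 := by
    rw [Algebra.coe_trace_int, htr, h0]
  exact_mod_cast h8

/-- structure of the ideals above a split prime -/
theorem exists_split (h2 : finrank ℚ K = 2) (hs : s ^ 2 = -(N : 𝓞 K)) {l : ℕ} (hl : l.Prime)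
    (hlN : ¬ l ∣ 2 * N) {P : Ideal (𝓞 K)} (hP : Ideal.absNorm P = l) :
    ∃ P' : Ideal (𝓞 K), Ideal.absNorm P' = l ∧ P ≠ P' ∧ P * P' = Ideal.span {(l : 𝓞 K)} := by
  have hPl : (l : 𝓞 K) ∈ P := by rw [← hP]; exact Ideal.absNorm_mem P
  obtain ⟨P', hP'⟩ := (Ideal.dvd_span_singleton.mpr hPl)
  have hn' : Ideal.absNorm P' = l := by
    have h1 := congrArg Ideal.absNorm hP'
    rw [absNorm_span_nat h2, map_mul, hP, pow_two] at h1
    exact (Nat.eq_of_mul_eq_mul_left hl.pos h1).symm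
  refine ⟨P', hn', ?_, hP'.symm⟩
  rintro rfl
  have hN0 : 0 < N := by
    rcases Nat.eq_zero_or_pos N with rfl | h
    · exact absurd (dvd_mul_right l 0 |>.trans (by simp)) hlN
    · exact h
  -- `s ≡ a mod P`
  obtain ⟨a, ha⟩ : ∃ a : ℤ, s - a ∈ P := by
    have hcard : Nat.card (𝓞 K ⧸ P) = l := hP
    haveI : Fact l.Prime := ⟨hl⟩
    haveI : Finite (𝓞 K ⧸ P) := Nat.finite_of_card_ne_zero (by rw [hcard]; exact hl.ne_zero)
    have h5 : (l : 𝓞 K ⧸ P) = 0 := by
      have := Ideal.Quotient.eq_zero_iff_mem.mpr hPl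
      rwa [map_natCast] at this
    haveI : Nontrivial (𝓞 K ⧸ P) := Finite.one_lt_card_iff_nontrivial.mp (by
      rw [hcard]; exact hl.one_lt)
    haveI : CharP (𝓞 K ⧸ P) l := by
      refine (CharP.charP_iff_prime_eq_zero hl).mpr h5
    have hbij : Function.Bijective (ZMod.castHom (dvd_refl l) (𝓞 K ⧸ P)) := by
      rw [Nat.bijective_iff_injective_and_card]
      refine ⟨ZMod.castHom_injective _, ?_⟩
      rw [hcard, Nat.card_zmod]
    obtain ⟨z, hz⟩ := hbij.2 (Ideal.Quotient.mk P s)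
    obtain ⟨a, rfl⟩ := ZMod.intCast_surjective z
    refine ⟨a, ?_⟩
    rw [← Ideal.Quotient.eq_zero_iff_mem, map_sub, ← hz, map_intCast, map_intCast, sub_self]
  -- `l ∣ a² + N`
  have h6 : (l : ℤ) ∣ a ^ 2 + N := by
    have h7 : ((a ^ 2 + N : ℤ) : 𝓞 K) ∈ P := by
      have h8 : ((a ^ 2 + N : ℤ) : 𝓞 K) = -((s - a) * (s + a)) := by
        push_cast
        linear_combination hs
      rw [h8]
      exact neg_mem (Ideal.mul_mem_right _ _ ha)
    have h9 : Ideal.absNorm P ∣ (Algebra.norm ℤ ((a ^ 2 + N : ℤ) : 𝓞 K)).natAbs := by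
      have := Ideal.absNorm_dvd_norm_of_mem h7
      rwa [Int.natCast_dvd] at this
    rw [hP] at h9
    have h10 : Algebra.norm ℤ ((a ^ 2 + N : ℤ) : 𝓞 K) = (a ^ 2 + N : ℤ) ^ 2 := by
      have := Algebra.norm_algebraMap (R := ℤ) (S := 𝓞 K) (a ^ 2 + N : ℤ)
      rw [NumberField.RingOfIntegers.rank, h2] at this
      simpa using this
    rw [h10, Int.natAbs_pow] at h9
    exact Int.natCast_dvd.mpr (hl.dvd_of_dvd_pow h9)
  -- square
  have h11 : (s - a) ^ 2 ∈ Ideal.span {(l : 𝓞 K)} := by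
    rw [hP', pow_two]
    exact Ideal.mul_mem_mul ha ha
  obtain ⟨w, hw⟩ := Ideal.mem_span_singleton.mp h11
  have h12 : ((a ^ 2 - N : ℤ) : 𝓞 K) - (2 * a : ℤ) • s = (l : ℤ) • w := by
    rw [zsmul_eq_mul, zsmul_eq_mul]
    push_cast
    linear_combination hw - hs
  have h13 := congrArg (Algebra.trace ℤ (𝓞 K)) h12
  rw [map_sub, map_smul, map_smul, trace_s h2 hs hN0, smul_zero, sub_zero] at h13
  have h14 : Algebra.trace ℤ (𝓞 K) ((a ^ 2 - N : ℤ) : 𝓞 K) = 2 * (a ^ 2 - N : ℤ) := by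
    have := Algebra.trace_algebraMap (R := ℤ) (S := 𝓞 K) (a ^ 2 - N : ℤ)
    rw [NumberField.RingOfIntegers.rank, h2] at this
    simpa using this
  rw [h14, smul_eq_mul] at h13
  have h15 : (l : ℤ) ∣ 2 * (2 * N) := by
    have h16 : (2 * (2 * N) : ℤ) = 2 * (a ^ 2 + N) - 2 * (a ^ 2 - N) := by ring
    rw [h16, h13]
    exact dvd_sub (dvd_mul_of_dvd_right h6 _) (dvd_mul_right _ _)
  have h17 : l ∣ 2 * (2 * N) := by exact_mod_cast h15
  rcases (Nat.Prime.dvd_mul hl).mp h17 with h | h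
  · exact hlN (dvd_mul_of_dvd_left h _)
  · exact hlN h

open Classical in
/-- **Hecke relation** at a prime `l ∤ 2N`, in characteristic two. -/
theorem S_hecke {M : Type*} [AddCommGroup M] (hM : ∀ x : M, x + x = 0)
    (h2 : finrank ℚ K = 2) (hs : s ^ 2 = -(N : 𝓞 K)) {l : ℕ} (hl : l.Prime)
    (hlN : ¬ l ∣ 2 * N) (G : ClassGroup (𝓞 K) → M) (n : ℕ) :
    S G (l * n) + (if l ∣ n then S G (n / l) else 0) =
      ∑ P : Idn K l, S (fun A => G (ClassGroup.mk0 P.1 * A)) n := by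
  by_cases hne : Nonempty (Idn K l)
  · obtain ⟨⟨P, hP⟩⟩ := hne
    obtain ⟨P'', hP'', hne', hPP'⟩ := exists_split h2 hs hl hlN hP
    obtain ⟨P', rfl⟩ : ∃ P' : (Ideal (𝓞 K))⁰, (P' : Ideal (𝓞 K)) = P'' :=
      ⟨⟨P'', mem_nonZeroDivisors_of_ne_zero (by
        rintro rfl
        simp at hP''
        exact hl.ne_zero hP''.symm)⟩, rfl⟩
    have hPprime : (P : Ideal (𝓞 K)).IsPrime :=
      Ideal.isPrime_of_irreducible_absNorm (by rw [hP]; exact hl)
    have hP'prime : (P' : Ideal (𝓞 K)).IsPrime :=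
      Ideal.isPrime_of_irreducible_absNorm (by rw [hP'']; exact hl)
    have hPpr : Prime (P : Ideal (𝓞 K)) :=
      Ideal.prime_of_isPrime (nonZeroDivisors.coe_ne_zero P) hPprime
    have hP'pr : Prime (P' : Ideal (𝓞 K)) :=
      Ideal.prime_of_isPrime (nonZeroDivisors.coe_ne_zero P') hP'prime
    -- ideals of norm divisible by `l`
    have hor : ∀ I : Ideal (𝓞 K), l ∣ Ideal.absNorm I → (P : Ideal (𝓞 K)) ∣ I ∨
        (P' : Ideal (𝓞 K)) ∣ I := by
      intro I hI
      obtain ⟨R, hR, hRl, hRI⟩ := Ideal.exists_isMaximal_dvd_of_dvd_absNorm' hl I hI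
      have h1 : (P : Ideal (𝓞 K)) * P' ≤ R := by
        rw [hPP', Ideal.span_singleton_le_iff_mem]
        exact mem_of_under hRl
      have hmaxP : (P : Ideal (𝓞 K)).IsMaximal := hPprime.isMaximal (nonZeroDivisors.coe_ne_zero P)
      have hmaxP' : (P' : Ideal (𝓞 K)).IsMaximal :=
        hP'prime.isMaximal (nonZeroDivisors.coe_ne_zero P')
      rcases hR.isPrime.mul_le.mp h1 with h | h
      · left; rw [hmaxP.eq_of_le hR.ne_top h]; exact hRI
      · right; rw [hmaxP'.eq_of_le hR.ne_top h]; exact hRI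
    have hand : ∀ I : Ideal (𝓞 K), (P : Ideal (𝓞 K)) ∣ I → (P' : Ideal (𝓞 K)) ∣ I →
        Ideal.span {(l : 𝓞 K)} ∣ I := by
      rintro I ⟨J, hJ⟩ h'
      rw [hJ] at h'
      rcases hP'pr.dvd_or_dvd h' with h | ⟨L, hL⟩
      · exfalso
        refine hne' (eq_of_dvd_of_absNorm_eq h (nonZeroDivisors.coe_ne_zero P) ?_).symm
        rw [hP'', hP]
      · rw [← hPP', hJ, hL]
        exact ⟨L, by ring⟩
    have hspn : ((spn l hl.ne_zero : (Ideal (𝓞 K))⁰) : Ideal (𝓞 K)) = (P : Ideal (𝓞 K)) * P' := by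
      rw [hPP']; rfl
    -- the sum over all ideals
    have hsum : S G (l * n) = S (fun A => G (ClassGroup.mk0 P * A)) n +
        S (fun A => G (ClassGroup.mk0 P' * A)) n +
        ∑ I : Idn K (l * n), (if ((spn l hl.ne_zero : (Ideal (𝓞 K))⁰) : Ideal (𝓞 K)) ∣ I.1
          then G (ClassGroup.mk0 I.1) else 0) := by
      rw [← sum_dvd P (n := n) (m := l * n) (by rw [hP]),
        ← sum_dvd P' (n := n) (m := l * n) (by rw [hP'']), ← Finset.sum_add_distrib,
        ← Finset.sum_add_distrib, S]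
      refine Finset.sum_congr rfl fun I _ => ?_
      have h1 : l ∣ Ideal.absNorm (I.1 : Ideal (𝓞 K)) := by rw [I.2]; exact dvd_mul_right _ _
      by_cases hPI : (P : Ideal (𝓞 K)) ∣ I.1
      · by_cases hPI' : (P' : Ideal (𝓞 K)) ∣ I.1
        · rw [if_pos hPI, if_pos hPI', if_pos (by rw [hspn, hPP']; exact hand _ hPI hPI'), hM,
            zero_add]
        · rw [if_pos hPI, if_neg hPI', if_neg (fun h => hPI' (by
            rw [hspn] at h; exact (dvd_mul_left _ _).trans h)), add_zero, add_zero]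
      · have hPI' : (P' : Ideal (𝓞 K)) ∣ I.1 := (hor _ h1).resolve_left hPI
        rw [if_neg hPI, if_pos hPI', if_neg (fun h => hPI (by
            rw [hspn] at h; exact (dvd_mul_right _ _).trans h)), add_zero, zero_add]
    have hlast : (∑ I : Idn K (l * n),
        (if ((spn l hl.ne_zero : (Ideal (𝓞 K))⁰) : Ideal (𝓞 K)) ∣ I.1
          then G (ClassGroup.mk0 I.1) else 0)) = if l ∣ n then S G (n / l) else 0 := by
      split_ifs with hln
      · obtain ⟨m, rfl⟩ := hln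
        rw [Nat.mul_div_cancel_left _ hl.pos, sum_dvd (spn l hl.ne_zero) (n := m) (m := l * (l * m))
          (by rw [coe_spn, absNorm_span_nat h2, pow_two, mul_assoc])]
        simp_rw [mk0_spn, one_mul]
      · refine Finset.sum_eq_zero fun I _ => ?_
        rw [if_neg]
        intro h
        have h3 := map_dvd Ideal.absNorm h
        rw [coe_spn, absNorm_span_nat h2, I.2, pow_two] at h3
        exact hln (Nat.dvd_of_mul_dvd_mul_left hl.pos h3)
    -- the right hand side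
    have huniv : (Finset.univ : Finset (Idn K l)) = {⟨P, hP⟩, ⟨P', hP''⟩} := by
      ext I
      simp only [Finset.mem_univ, Finset.mem_insert, Finset.mem_singleton, true_iff]
      have h1 : l ∣ Ideal.absNorm (I.1 : Ideal (𝓞 K)) := by rw [I.2]
      rcases hor _ h1 with h | h
      · left
        apply Subtype.ext; apply Subtype.ext
        exact (eq_of_dvd_of_absNorm_eq h (nonZeroDivisors.coe_ne_zero I.1) (by rw [hP, I.2])).symm
      · right
        apply Subtype.ext; apply Subtype.ext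
        exact (eq_of_dvd_of_absNorm_eq h (nonZeroDivisors.coe_ne_zero I.1) (by rw [hP'', I.2])).symm
    rw [huniv, Finset.sum_pair (by
      intro h
      exact hne' (congrArg (fun x : Idn K l => ((x.1 : (Ideal (𝓞 K))⁰) : Ideal (𝓞 K))) h)), hsum,
      hlast, add_assoc, hM, add_zero]
  · have hin : ∀ I : Ideal (𝓞 K), Ideal.absNorm I ≠ l := by
      intro I hI
      refine hne ⟨⟨⟨I, mem_nonZeroDivisors_of_ne_zero ?_⟩, hI⟩⟩
      rintro rfl
      simp at hI
      exact hl.ne_zero hI.symm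
    rw [not_nonempty_iff] at hne
    rw [Finset.sum_of_isEmpty, S_inert h2 hl hin]
    exact hM _

end Split

end Fermat.Agent.LTF.ThR
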