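import Mathlib
import Fermat.Agent.S29.Lift

/-!
# Points of reduced finite free `ℤ`-algebras

A reduced finite free `ℤ`-algebra of rank `m` has `m` points over a suitable complete discrete
valuation ring of residue characteristic `p`.
-/

set_option autoImplicit false
set_option linter.style.haveILetI false
set_option linter.unusedSectionVars false

open IsLocalRing Module

namespace Fermat.Agent.LTF.ThR

section Field

variable (A : Type*) [CommRing A] [Algebra ℚ A] [Module.Finite ℚ A] [IsReduced A]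
variable (Ω : Type*) [Field Ω] [Algebra ℚ Ω] [IsAlgClosed Ω]

/-- a reduced finite `ℚ`-algebra has at least `dim` points -/
theorem finrank_le_card_algHom : ∃ X : Finset (A →ₐ[ℚ] Ω), finrank ℚ A ≤ X.card := by
  classical
  haveI : IsArtinianRing A := IsArtinianRing.of_finite ℚ A
  haveI hfin : Finite (MaximalSpectrum A) := inferInstance
  letI : Fintype (MaximalSpectrum A) := Fintype.ofFinite _
  letI : ∀ I : MaximalSpectrum A, Field (A ⧸ I.asIdeal) := fun I =>
    @Ideal.Quotient.field _ _ I.asIdeal I.isMaximal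
  haveI : ∀ I : MaximalSpectrum A, FiniteDimensional ℚ (A ⧸ I.asIdeal) := fun I => inferInstance
  have hcard : ∀ I : MaximalSpectrum A,
      Fintype.card ((A ⧸ I.asIdeal) →ₐ[ℚ] Ω) = finrank ℚ (A ⧸ I.asIdeal) := fun I =>
    AlgHom.card ℚ (A ⧸ I.asIdeal) Ω
  let g : (Σ I : MaximalSpectrum A, ((A ⧸ I.asIdeal) →ₐ[ℚ] Ω)) → (A →ₐ[ℚ] Ω) := fun x =>
    x.2.comp (Ideal.Quotient.mkₐ ℚ x.1.asIdeal)
  have hker : ∀ x, RingHom.ker (g x) = x.1.asIdeal := by
    rintro ⟨I, x⟩
    ext a
    rw [RingHom.mem_ker]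
    change x (Ideal.Quotient.mk I.asIdeal a) = 0 ↔ _
    rw [map_eq_zero_iff x (RingHom.injective (x : (A ⧸ I.asIdeal) →+* Ω)),
      Ideal.Quotient.eq_zero_iff_mem]
  have hg : Function.Injective g := by
    rintro ⟨I, x⟩ ⟨I', x'⟩ h
    have h1 : I = I' := by
      apply MaximalSpectrum.ext
      rw [← hker ⟨I, x⟩, ← hker ⟨I', x'⟩, h]
    subst h1
    congr 1
    refine AlgHom.ext fun a => ?_
    obtain ⟨a, rfl⟩ := Ideal.Quotient.mk_surjective a
    exact DFunLike.congr_fun h a
  refine ⟨Finset.univ.image g, ?_⟩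
  rw [Finset.card_image_of_injective _ hg, Finset.card_univ, Fintype.card_sigma]
  simp_rw [hcard]
  rw [← Module.finrank_pi_fintype ℚ]
  refine LinearMap.finrank_le_finrank_of_injective
    (f := LinearMap.pi fun I : MaximalSpectrum A => (Ideal.Quotient.mkₐ ℚ I.asIdeal).toLinearMap) ?_
  rw [← LinearMap.ker_eq_bot, LinearMap.ker_eq_bot']
  intro a ha
  have h1 : ∀ I : MaximalSpectrum A, a ∈ I.asIdeal := fun I => by
    have := congrFun ha I
    exact Ideal.Quotient.eq_zero_iff_mem.mp this
  have h2 : a ∈ nilradical A := by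
    rw [nilradical_eq_sInf, Ideal.mem_sInf]
    intro P hP
    have hP' : P.IsPrime := hP
    have : P.IsMaximal := inferInstance
    exact h1 ⟨P, this⟩
  rwa [nilradical_eq_zero, Ideal.zero_eq_bot, Ideal.mem_bot] at h2

end Field

section Int

open TensorProduct

variable (T : Type) [CommRing T] [Module.Finite ℤ T] [Module.Free ℤ T] [IsReduced T]

theorem exists_smul_eq (x : ℚ ⊗[ℤ] T) : ∃ (n : ℤ) (t : T), n ≠ 0 ∧ n • x = 1 ⊗ₜ t := by
  induction x with
  | zero => exact ⟨1, 0, one_ne_zero, by simp⟩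
  | tmul q t =>
    refine ⟨q.den, q.num • t, by exact_mod_cast q.den_nz, ?_⟩
    rw [← TensorProduct.tmul_smul, TensorProduct.tmul_smul, TensorProduct.smul_tmul',
      TensorProduct.tmul_smul, TensorProduct.smul_tmul']
    congr 1
    rw [zsmul_eq_mul, zsmul_eq_mul, mul_one]
    push_cast
    rw [mul_comm]
    exact Rat.mul_den_eq_num q
  | add x y hx hy =>
    obtain ⟨n, t, hn, h⟩ := hx
    obtain ⟨n', t', hn', h'⟩ := hy
    refine ⟨n * n', n' • t + n • t', mul_ne_zero hn hn', ?_⟩
    rw [TensorProduct.tmul_add, TensorProduct.tmul_smul, TensorProduct.tmul_smul, ← h, ← h',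
      smul_add, smul_smul, smul_smul, mul_comm n' n]

theorem inj_includeRight : Function.Injective (fun t : T => (1 : ℚ) ⊗ₜ[ℤ] t) := by
  have h : Function.Injective (Algebra.TensorProduct.includeRight : T →ₐ[ℤ] ℚ ⊗[ℤ] T) :=
    Algebra.TensorProduct.includeRight_injective (R := ℤ) (A := ℚ) (B := T)
      (fun a b hab => by exact_mod_cast hab)
  exact h

theorem isReduced_tensor : IsReduced (ℚ ⊗[ℤ] T) := by
  refine ⟨fun x hx => ?_⟩
  obtain ⟨k, hk⟩ := hx
  obtain ⟨n, t, hn, h⟩ := exists_smul_eq T x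
  have h1 : (1 : ℚ) ⊗ₜ[ℤ] (t ^ k) = 0 := by
    have h2 : ((1 : ℚ) ⊗ₜ[ℤ] t) ^ k = 0 := by rw [← h, smul_pow, hk, smul_zero]
    rwa [Algebra.TensorProduct.tmul_pow, one_pow] at h2
  have h3 : t ^ k = 0 := inj_includeRight T (by
    simp only [h1, TensorProduct.tmul_zero])
  have h4 : t = 0 := IsReduced.eq_zero _ ⟨k, h3⟩
  rw [h4, TensorProduct.tmul_zero] at h
  have h5 : ((n : ℚ)⁻¹) • (n • x) = x := by
    rw [← Int.cast_smul_eq_zsmul ℚ n x, smul_smul, inv_mul_cancel₀ (by exact_mod_cast hn), one_smul]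
  rw [← h5, h, smul_zero]

/-- the points of `T` over an algebraically closed field of characteristic zero -/
theorem finrank_le_card_ringHom (Ω : Type*) [Field Ω] [Algebra ℚ Ω] [IsAlgClosed Ω] :
    ∃ X : Finset (T →+* Ω), finrank ℤ T ≤ X.card := by
  classical
  haveI := isReduced_tensor T
  obtain ⟨X, hX⟩ := finrank_le_card_algHom (ℚ ⊗[ℤ] T) Ω
  let g : (ℚ ⊗[ℤ] T →ₐ[ℚ] Ω) → (T →+* Ω) := fun f =>
    (f : ℚ ⊗[ℤ] T →+* Ω).comp (Algebra.TensorProduct.includeRight : T →ₐ[ℤ] ℚ ⊗[ℤ] T).toRingHom
  have hg : Function.Injective g := by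
    intro f f' h
    refine AlgHom.ext fun x => ?_
    obtain ⟨n, t, hn, hx⟩ := exists_smul_eq T x
    have h1 : f (1 ⊗ₜ t) = f' (1 ⊗ₜ t) := DFunLike.congr_fun h t
    rw [← hx, map_zsmul, map_zsmul, zsmul_eq_mul, zsmul_eq_mul] at h1
    haveI : CharZero Ω := algebraRat.charZero Ω
    exact mul_left_cancel₀ (by exact_mod_cast hn) h1
  refine ⟨X.image g, ?_⟩
  rw [Finset.card_image_of_injective _ hg]
  refine le_trans (le_of_eq ?_) hX
  rw [Module.finrank_baseChange]

/-- **Points over a complete discrete valuation ring.** -/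
theorem exists_dvr_points {p : ℕ} (hp : p.Prime) :
    ∃ (O : Type) (_ : CommRing O) (_ : IsDomain O) (_ : IsDiscreteValuationRing O)
      (_ : IsAdicComplete (maximalIdeal O) O) (_ : Finite (ResidueField O)) (_ : CharZero O),
      (p : O) ∈ maximalIdeal O ∧ ∃ X : Finset (T →+* O), finrank ℤ T ≤ X.card := by
  classical
  obtain ⟨X, hX⟩ := finrank_le_card_ringHom T (AlgebraicClosure ℚ)
  let bT := Module.finBasis ℤ T
  let S : Set (AlgebraicClosure ℚ) := ⋃ π ∈ X, Set.range fun k => π (bT k)
  have hS : S.Finite := Set.Finite.biUnion X.finite_toSet fun π _ => Set.finite_range _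
  have hint : ∀ (π : T →+* AlgebraicClosure ℚ) (t : T), IsIntegral ℤ (π t) := fun π t =>
    (Algebra.IsIntegral.isIntegral (R := ℤ) t).map π.toIntAlgHom
  let E : IntermediateField ℚ (AlgebraicClosure ℚ) := IntermediateField.adjoin ℚ S
  haveI : FiniteDimensional ℚ E := by
    haveI := hS.to_subtype
    refine IntermediateField.finiteDimensional_adjoin ?_
    intro x hx
    obtain ⟨π, hπ, k, rfl⟩ := Set.mem_iUnion₂.mp hx
    exact (hint π _).tower_top
  haveI : NumberField E := ⟨⟩
  have hmem : ∀ π ∈ X, ∀ t, π t ∈ E := by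
    intro π hπ t
    rw [← bT.sum_repr t, map_sum]
    refine sum_mem fun k _ => ?_
    rw [map_zsmul]
    refine zsmul_mem (IntermediateField.subset_adjoin ℚ S ?_) _
    exact Set.mem_biUnion hπ ⟨k, rfl⟩
  -- a residue map
  obtain ⟨P, hP⟩ : ∃ P : Ideal (NumberField.RingOfIntegers E), P.IsMaximal ∧
      (p : NumberField.RingOfIntegers E) ∈ P := by
    obtain ⟨P, hP, hle⟩ := Ideal.exists_le_maximal
      (Ideal.span {(p : NumberField.RingOfIntegers E)}) (by
        rw [Ne, Ideal.span_singleton_eq_top]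
        intro hu
        have h1 := hu.map (Algebra.norm ℤ)
        have h2 : Algebra.norm ℤ (p : NumberField.RingOfIntegers E) =
            (p : ℤ) ^ finrank ℤ (NumberField.RingOfIntegers E) := by
          have := Algebra.norm_algebraMap (R := ℤ) (S := NumberField.RingOfIntegers E) (p : ℤ)
          simpa using this
        rw [h2, isUnit_pow_iff Module.finrank_pos.ne', Int.isUnit_iff] at h1
        have := hp.two_le
        omega)
    exact ⟨P, hP, hle (Ideal.mem_span_singleton_self _)⟩
  obtain ⟨hP, hpP⟩ := hP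
  letI := @Ideal.Quotient.field _ _ P hP
  haveI : CharP (NumberField.RingOfIntegers E ⧸ P) p := by
    refine (CharP.charP_iff_prime_eq_zero hp).mpr ?_
    have : Ideal.Quotient.mk P (p : NumberField.RingOfIntegers E) = 0 :=
      Ideal.Quotient.eq_zero_iff_mem.mpr hpP
    rwa [map_natCast] at this
  obtain ⟨O, _, _, _, _, _, hO0, j, -, hpO, -⟩ :=
    Fermat.Agent.S29aux.exists_completeDVR E hp (Ideal.Quotient.mk P)
  refine ⟨O, inferInstance, inferInstance, inferInstance, inferInstance, inferInstance, hO0, hpO, ?_⟩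
  have hj : Function.Injective j := by
    rw [injective_iff_map_eq_zero]
    intro x hx
    by_contra hx0
    have h1 := Ideal.comap_ne_bot_of_integral_mem (R := ℤ) (I := RingHom.ker j) hx0
      ((RingHom.mem_ker).mpr hx) (Algebra.IsIntegral.isIntegral x)
    obtain ⟨n, hn, hn0⟩ := Submodule.exists_mem_ne_zero_of_ne_bot h1
    rw [Ideal.mem_comap, RingHom.mem_ker, eq_intCast, map_intCast] at hn
    exact hn0 (by exact_mod_cast hn)
  -- the points
  let g : {π // π ∈ X} → (T →+* O) := fun π =>
      j.comp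
        { toFun := fun t => ⟨⟨π.1 t, hmem π.1 π.2 t⟩, by
            have h1 := hint π.1 t
            exact (isIntegral_algHom_iff (E.val.restrictScalars ℤ)
              (E.val.restrictScalars ℤ).injective).mp h1⟩
          map_one' := by
            apply Subtype.ext; apply Subtype.ext; exact map_one π.1
          map_mul' := fun a b => by
            apply Subtype.ext; apply Subtype.ext; exact map_mul π.1 a b
          map_zero' := by
            apply Subtype.ext; apply Subtype.ext; exact map_zero π.1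
          map_add' := fun a b => by
            apply Subtype.ext; apply Subtype.ext; exact map_add π.1 a b }
  have hg : Function.Injective g := by
    intro π π' h
    apply Subtype.ext
    refine RingHom.ext fun t => ?_
    have h1 := hj (DFunLike.congr_fun h t)
    have h2 := congrArg (fun x : NumberField.RingOfIntegers E => ((x : E) : AlgebraicClosure ℚ)) h1
    exact h2
  refine ⟨X.attach.image g, ?_⟩
  rw [Finset.card_image_of_injective _ hg, Finset.card_attach]
  exact hX

end Int

end Fermat.Agent.LTF.ThR
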